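import Fermat.Agent.S55.G.Rec.H721Tame

/-!
# S55 — dictionary "tensor model ↔ coinduced model" (PSI core), helper721

For a finite extension `F/ℚ` inside `ℚ̄` with `U = Gal(ℚ̄/F)` and a prime `q`, the map

  `psi : F ⊗[ℚ] ℚ_q → (G_ℚ ⧸ U → ℚ̄_q)`,  `x ⊗ y ↦ (gU ↦ ι_q (g x) · y)`

(`ι_q` = Prelude `padicEmbedding q`) is an injective `ℚ`-algebra homomorphism whose image is
exactly the set of functions `f` which are equivariant for the local Galois group:
`f (loc τ • c) = τ (f c)` for all `τ ∈ Gal(ℚ̄_q/ℚ_q)` (`loc` = Prelude `localGaloisToGlobal q`).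

If `F/ℚ` is normal, `psi` intertwines the action of `g ∈ G_ℚ` on `F` with right translation
on `G_ℚ ⧸ U`.  Hence `F ⊗ ℚ_q ≅ Coind_{D_q}^{Gal(F/ℚ)} (F_q)` and
`(F ⊗ ℚ_q)ˣ ≅ Coind (F_qˣ) = J_q(F)`.

Mathlib + Prelude only.
-/

set_option autoImplicit false

noncomputable section

namespace Fermat.Agent.S55.H721Psi

open scoped TensorProduct
open Fermat.Agent.S55.G.Rec.H721

local notation "Qb" => AlgebraicClosure ℚ
local notation "GQ" => (AlgebraicClosure ℚ ≃ₐ[ℚ] AlgebraicClosure ℚ)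

variable (q : ℕ) [Fact q.Prime] (F : IntermediateField ℚ Qb)

/-- The embedding `x ↦ ι_q (g x)` of `F` into `ℚ̄_q`. -/
def emb (g : GQ) : F →ₐ[ℚ] PadicAlgCl q :=
  (padicEmbedding q).comp ((g : Qb →ₐ[ℚ] Qb).comp F.val)

@[simp] lemma emb_apply (g : GQ) (x : F) :
    emb q F g x = padicEmbedding q (g (x : Qb)) := rfl

lemma emb_eq_iff (g g' : GQ) :
    emb q F g = emb q F g' ↔ g⁻¹ * g' ∈ F.fixingSubgroup := by
  rw [IntermediateField.mem_fixingSubgroup_iff]
  constructor
  · intro h x hx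
    have h1 := DFunLike.congr_fun h ⟨x, hx⟩
    simp only [emb_apply] at h1
    have h2 : g x = g' x := (padicEmbedding q).toRingHom.injective h1
    show (g⁻¹ * g') x = x
    rw [AlgEquiv.mul_apply, ← h2]
    exact AlgEquiv.symm_apply_apply g x
  · intro h
    ext ⟨x, hx⟩
    simp only [emb_apply]
    congr 1
    have h1 : (g⁻¹ * g') x = x := h x hx
    rw [AlgEquiv.mul_apply] at h1
    have h2 := congrArg g h1
    rw [← h2]
    exact AlgEquiv.apply_symm_apply g (g' x)

/-- `emb` on cosets. -/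
def embQ (c : GQ ⧸ F.fixingSubgroup) : F →ₐ[ℚ] PadicAlgCl q :=
  Quotient.liftOn' c (emb q F) (fun g g' h => by
    rw [emb_eq_iff]
    exact QuotientGroup.leftRel_apply.1 h)

@[simp] lemma embQ_mk (g : GQ) : embQ q F (g : GQ ⧸ F.fixingSubgroup) = emb q F g := rfl

lemma embQ_injective : Function.Injective (embQ q F) := by
  intro c c' h
  induction c using QuotientGroup.induction_on with
  | H g =>
    induction c' using QuotientGroup.induction_on with
    | H g' =>
      rw [embQ_mk, embQ_mk, emb_eq_iff] at h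
      exact QuotientGroup.eq.2 h

/-- The `ℚ`-algebra homomorphism `ℚ_q → ℚ̄_q`. -/
def incl : ℚ_[q] →ₐ[ℚ] PadicAlgCl q := (algebraMap ℚ_[q] (PadicAlgCl q)).toRatAlgHom

@[simp] lemma incl_apply (y : ℚ_[q]) : incl q y = algebraMap ℚ_[q] (PadicAlgCl q) y := rfl

/-- The component of `psi` at the coset `c`: `x ⊗ y ↦ ι_q (g x) · y`. -/
def psiAt (c : GQ ⧸ F.fixingSubgroup) : F ⊗[ℚ] ℚ_[q] →ₐ[ℚ] PadicAlgCl q :=
  Algebra.TensorProduct.lift (embQ q F c) (incl q) (fun _ _ => Commute.all _ _)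

@[simp] lemma psiAt_tmul (c : GQ ⧸ F.fixingSubgroup) (x : F) (y : ℚ_[q]) :
    psiAt q F c (x ⊗ₜ[ℚ] y) = embQ q F c x * algebraMap ℚ_[q] (PadicAlgCl q) y := by
  simp [psiAt]

/-- **The PSI map** `F ⊗[ℚ] ℚ_q → (G_ℚ ⧸ U → ℚ̄_q)`. -/
def psi : F ⊗[ℚ] ℚ_[q] →ₐ[ℚ] (GQ ⧸ F.fixingSubgroup → PadicAlgCl q) :=
  AlgHom.pi (psiAt q F)

@[simp] lemma psi_apply (t : F ⊗[ℚ] ℚ_[q]) (c : GQ ⧸ F.fixingSubgroup) :
    psi q F t c = psiAt q F c t := rfl

lemma psi_tmul_mk (x : F) (y : ℚ_[q]) (g : GQ) :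
    psi q F (x ⊗ₜ[ℚ] y) (g : GQ ⧸ F.fixingSubgroup) =
      padicEmbedding q (g (x : Qb)) * algebraMap ℚ_[q] (PadicAlgCl q) y := by
  simp

/-! ## Equivariance for the local Galois group -/

lemma embQ_loc_smul (τ : PadicAlgCl q ≃ₐ[ℚ_[q]] PadicAlgCl q) (c : GQ ⧸ F.fixingSubgroup)
    (x : F) : embQ q F (localGaloisToGlobal q τ • c) x = τ (embQ q F c x) := by
  induction c using QuotientGroup.induction_on with
  | H g =>
    rw [MulAction.Quotient.smul_mk, embQ_mk, embQ_mk, emb_apply, emb_apply, smul_eq_mul,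
      AlgEquiv.mul_apply, padicEmbedding_localGaloisToGlobal]

/-- `psi t (loc τ • c) = τ (psi t c)`. -/
theorem psiAt_loc_smul (τ : PadicAlgCl q ≃ₐ[ℚ_[q]] PadicAlgCl q) (c : GQ ⧸ F.fixingSubgroup)
    (t : F ⊗[ℚ] ℚ_[q]) :
    psiAt q F (localGaloisToGlobal q τ • c) t = τ (psiAt q F c t) := by
  induction t using TensorProduct.induction_on with
  | zero => simp
  | tmul x y => rw [psiAt_tmul, psiAt_tmul, embQ_loc_smul, map_mul, AlgEquiv.commutes]
  | add a b ha hb => rw [map_add, map_add, ha, hb, map_add]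

/-! ## Compatibility with the Galois action on `F` (for `F/ℚ` normal) -/

/-- `psi (h • t) (gU) = psi t (ghU)`, where `h ∈ G_ℚ` acts on `F ⊗ ℚ_q` through `F`. -/
theorem psiAt_mul_mk [Normal ℚ F] (g h : GQ) (t : F ⊗[ℚ] ℚ_[q]) :
    psiAt q F ((g * h : GQ) : GQ ⧸ F.fixingSubgroup) t =
      psiAt q F (g : GQ ⧸ F.fixingSubgroup)
        (Algebra.TensorProduct.map ((AlgEquiv.restrictNormal h F : F ≃ₐ[ℚ] F) : F →ₐ[ℚ] F)
          (AlgHom.id ℚ ℚ_[q]) t) := by
  induction t using TensorProduct.induction_on with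
  | zero => simp
  | tmul x y =>
    rw [Algebra.TensorProduct.map_tmul, psiAt_tmul, psiAt_tmul, embQ_mk, embQ_mk, emb_apply,
      emb_apply, AlgEquiv.mul_apply]
    congr 3
    exact (AlgEquiv.restrictNormal_commutes h F x).symm
  | add a b ha hb => rw [map_add, map_add, map_add, ha, hb]

/-! ## Bijectivity onto the equivariant functions -/

section Finite

variable [FiniteDimensional ℚ F]

lemma isGalois_Qb : IsGalois ℚ Qb :=
  haveI : Algebra.IsAlgebraic ℚ Qb := AlgebraicClosure.isAlgebraic ℚ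
  haveI : IsAlgClosure ℚ Qb := ⟨inferInstance, inferInstance⟩
  haveI : Normal ℚ Qb := IsAlgClosure.normal ℚ Qb
  ⟨⟩

omit [FiniteDimensional ℚ F] in
lemma index_fixingSubgroup : F.fixingSubgroup.index = Module.finrank ℚ F :=
  haveI := isGalois_Qb
  (IntermediateField.finrank_eq_fixingSubgroup_index Qb F).symm

instance finiteIndex_fixingSubgroup : F.fixingSubgroup.FiniteIndex :=
  ⟨by rw [index_fixingSubgroup]; exact Module.finrank_pos.ne'⟩

instance finite_quotient : Finite (GQ ⧸ F.fixingSubgroup) :=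
  Subgroup.finite_quotient_of_finiteIndex

omit [FiniteDimensional ℚ F] in
lemma card_quotient : Nat.card (GQ ⧸ F.fixingSubgroup) = Module.finrank ℚ F := by
  rw [← index_fixingSubgroup]
  exact (Subgroup.index_eq_card _).symm

/-- A `ℚ`-basis of `F` indexed by `G_ℚ ⧸ U`. -/
def cosetBasis : Module.Basis (GQ ⧸ F.fixingSubgroup) ℚ F :=
  haveI : Fintype (GQ ⧸ F.fixingSubgroup) := Fintype.ofFinite _
  (Module.finBasis ℚ F).reindex
    (Fintype.equivOfCardEq (by
      rw [Fintype.card_fin, ← Nat.card_eq_fintype_card, card_quotient]))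

/-- The matrix of conjugates `(ι_q (g b_i))_{gU, i}`. -/
def conjMatrix : Matrix (GQ ⧸ F.fixingSubgroup) (GQ ⧸ F.fixingSubgroup) (PadicAlgCl q) :=
  Matrix.of fun c i => embQ q F c (cosetBasis F i)

variable [Fintype (GQ ⧸ F.fixingSubgroup)] [DecidableEq (GQ ⧸ F.fixingSubgroup)]

/-- Dedekind: the matrix of conjugates is invertible. -/
theorem isUnit_conjMatrix : IsUnit (conjMatrix q F) := by
  rw [← Matrix.vecMul_injective_iff_isUnit]
  have hli : LinearIndependent (PadicAlgCl q)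
      (fun c : GQ ⧸ F.fixingSubgroup => (embQ q F c).toLinearMap) :=
    (linearIndependent_toLinearMap ℚ F (PadicAlgCl q)).comp _ (embQ_injective q F)
  intro v w hvw
  have h0 : Matrix.vecMul (v - w) (conjMatrix q F) = 0 := by
    rw [Matrix.sub_vecMul]
    exact sub_eq_zero.2 hvw
  have hsum : ∑ c, (v - w) c • (embQ q F c).toLinearMap = 0 := by
    apply (cosetBasis F).ext
    intro i
    have hi := congrFun h0 i
    simp only [Matrix.vecMul, dotProduct, conjMatrix, Matrix.of_apply, Pi.zero_apply] at hi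
    rw [LinearMap.sum_apply, LinearMap.zero_apply]
    simpa only [LinearMap.smul_apply, AlgHom.toLinearMap_apply, smul_eq_mul] using hi
  have := Fintype.linearIndependent_iff.1 hli (v - w) hsum
  funext c
  exact sub_eq_zero.1 (this c)

omit [DecidableEq (GQ ⧸ F.fixingSubgroup)] in
/-- Every tensor is `∑ i, b_i ⊗ y_i`. -/
lemma exists_repr (t : F ⊗[ℚ] ℚ_[q]) :
    ∃ y : GQ ⧸ F.fixingSubgroup → ℚ_[q], t = ∑ i, cosetBasis F i ⊗ₜ[ℚ] y i := by
  induction t using TensorProduct.induction_on with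
  | zero => exact ⟨0, by simp⟩
  | tmul x z =>
    refine ⟨fun i => (cosetBasis F).repr x i • z, ?_⟩
    conv_lhs => rw [← (cosetBasis F).sum_repr x]
    rw [TensorProduct.sum_tmul]
    refine Finset.sum_congr rfl fun i _ => ?_
    rw [TensorProduct.smul_tmul]
  | add a b ha hb =>
    obtain ⟨y, rfl⟩ := ha
    obtain ⟨y', rfl⟩ := hb
    refine ⟨y + y', ?_⟩
    simp [TensorProduct.tmul_add, Finset.sum_add_distrib]

omit [DecidableEq (GQ ⧸ F.fixingSubgroup)] in
lemma psi_sum (y : GQ ⧸ F.fixingSubgroup → ℚ_[q]) :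
    psi q F (∑ i, cosetBasis F i ⊗ₜ[ℚ] y i) =
      (conjMatrix q F).mulVec (fun i => algebraMap ℚ_[q] (PadicAlgCl q) (y i)) := by
  funext c
  rw [psi_apply, map_sum]
  simp only [psiAt_tmul, Matrix.mulVec, dotProduct, conjMatrix, Matrix.of_apply]

end Finite

section Main

variable [FiniteDimensional ℚ F]

/-- **PSI is injective.** -/
theorem psi_injective : Function.Injective (psi q F) := by
  classical
  letI : Fintype (GQ ⧸ F.fixingSubgroup) := Fintype.ofFinite _
  rw [injective_iff_map_eq_zero]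
  intro t ht
  obtain ⟨y, rfl⟩ := exists_repr q F t
  rw [psi_sum] at ht
  have hinj := Matrix.mulVec_injective_iff_isUnit.2 (isUnit_conjMatrix q F)
  have h0 : (fun i => algebraMap ℚ_[q] (PadicAlgCl q) (y i)) = 0 := by
    apply hinj
    rw [ht, Matrix.mulVec_zero]
  have hy : ∀ i, y i = 0 := fun i =>
    (algebraMap ℚ_[q] (PadicAlgCl q)).injective (by simpa using congrFun h0 i)
  simp [hy]

/-- **The image of PSI** is the set of functions equivariant for the local Galois group. -/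
theorem mem_range_psi_iff (f : GQ ⧸ F.fixingSubgroup → PadicAlgCl q) :
    f ∈ Set.range (psi q F) ↔
      ∀ (τ : PadicAlgCl q ≃ₐ[ℚ_[q]] PadicAlgCl q) (c : GQ ⧸ F.fixingSubgroup),
        f (localGaloisToGlobal q τ • c) = τ (f c) := by
  classical
  letI : Fintype (GQ ⧸ F.fixingSubgroup) := Fintype.ofFinite _
  constructor
  · rintro ⟨t, rfl⟩ τ c
    exact psiAt_loc_smul q F τ c t
  · intro hf
    have hM := isUnit_conjMatrix q F
    obtain ⟨z, hz⟩ := Matrix.mulVec_surjective_iff_isUnit.2 hM f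
    have hinj := Matrix.mulVec_injective_iff_isUnit.2 hM
    -- `z` is Galois invariant
    have hτ : ∀ τ : PadicAlgCl q ≃ₐ[ℚ_[q]] PadicAlgCl q, (fun i => τ (z i)) = z := by
      intro τ
      apply hinj
      rw [hz]
      funext c
      obtain ⟨c', rfl⟩ : ∃ c', localGaloisToGlobal q τ • c' = c :=
        ⟨(localGaloisToGlobal q τ)⁻¹ • c, smul_inv_smul _ _⟩
      rw [hf τ c', ← hz]
      simp only [Matrix.mulVec, dotProduct, conjMatrix, Matrix.of_apply, map_sum, map_mul,
        embQ_loc_smul]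
    have hz' : ∀ i, ∃ y : ℚ_[q], algebraMap ℚ_[q] (PadicAlgCl q) y = z i := by
      intro i
      have := (InfiniteGalois.mem_range_algebraMap_iff_fixed (k := ℚ_[q])
        (K := PadicAlgCl q) (z i)).2 (fun τ => congrFun (hτ τ) i)
      exact this
    choose y hy using hz'
    refine ⟨∑ i, cosetBasis F i ⊗ₜ[ℚ] y i, ?_⟩
    rw [psi_sum, ← hz]
    congr 1
    funext i
    exact hy i

end Main

end Fermat.Agent.S55.H721Psi
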